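import Fermat.Prelude.Def_ExtEndgame_ProductionDatum
import Fermat.Agent.Lib.Frobenius.Basic
import Fermat.Agent.Lib.LocalGalois.Range
import Fermat.Agent.Lib.Minkowski.InertiaLift
import Fermat.Agent.Lib.Frobenius.Lift
import Fermat.Agent.MU.S17.W.Final
import Fermat.Agent.Lib.KFin.Inertia
import Fermat.Agent.MU.Lib.TameInertia.Main
import Fermat.Agent.MU.F4.Datum
import Fermat.Agent.S56.W3.TW.Lies

section MergeWrap_Lib_Frobenius_FrobMod -- from Lib/Frobenius/FrobMod.lean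

set_option autoImplicit false
set_option linter.style.haveILetI false

/-!
# Existence of a Frobenius element modulo a prime of the ring of all algebraic integers
-/

namespace Fermat.Agent.FrobExists

open scoped Pointwise

attribute [local instance] isAlgebraic_Qb isAlgClosure_Qb isInvariant_Zb

theorem exists_frob_mod (ℓ : ℕ) (hℓ : ℓ.Prime) (Q : Ideal Zb) [hQ : Q.IsPrime]
    (hℓQ : (ℓ : Zb) ∈ Q) :
    ∃ σ : GQ, σ • Q = Q ∧ ∀ b : Zb, σ • b - b ^ ℓ ∈ Q := by
  classical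
  letI : TopologicalSpace Zb := ⊥
  haveI : DiscreteTopology Zb := ⟨rfl⟩
  haveI : ContinuousSMul GQ Zb := continuousSMul_Zb
  haveI : Fact ℓ.Prime := ⟨hℓ⟩
  set P : Ideal ℤ := Q.under ℤ with hP
  haveI hlo : Q.LiesOver P := ⟨rfl⟩
  haveI hPprime : P.IsPrime := Ideal.IsPrime.under ℤ Q
  have hℓP : (ℓ : ℤ) ∈ P := by
    rw [hP, Ideal.under_def, Ideal.mem_comap]
    simpa using hℓQ
  -- characteristic `ℓ`
  haveI hchar : CharP (Zb ⧸ Q) ℓ := by
    have h0 : ((ℓ : ℕ) : Zb ⧸ Q) = 0 := by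
      have : (Ideal.Quotient.mk Q (ℓ : Zb)) = 0 := Ideal.Quotient.eq_zero_iff_mem.mpr hℓQ
      simpa using this
    haveI : Nontrivial (Zb ⧸ Q) := Ideal.Quotient.nontrivial_iff.mpr hQ.ne_top
    exact (CharP.charP_iff_prime_eq_zero hℓ).mpr h0
  -- Frobenius as an algebra endomorphism over `ℤ ⧸ P`
  let Fa : (Zb ⧸ Q) →ₐ[ℤ ⧸ P] (Zb ⧸ Q) :=
    { frobenius (Zb ⧸ Q) ℓ with
      commutes' := by
        intro r
        obtain ⟨n, rfl⟩ := Ideal.Quotient.mk_surjective r
        have h1 : algebraMap (ℤ ⧸ P) (Zb ⧸ Q) (Ideal.Quotient.mk P n) = ((n : ℤ) : Zb ⧸ Q) := by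
          have : Ideal.Quotient.mk P n = ((n : ℤ) : ℤ ⧸ P) := by simp
          rw [this, map_intCast]
        simp only [RingHom.toMonoidHom_eq_coe, OneHom.toFun_eq_coe, MonoidHom.toOneHom_coe,
          MonoidHom.coe_coe]
        rw [h1, map_intCast] }
  -- maximality
  have hPne : P ≠ ⊥ := by
    intro h
    rw [h, Ideal.mem_bot] at hℓP
    exact hℓ.ne_zero (by exact_mod_cast hℓP)
  haveI hPmax : P.IsMaximal := Ideal.IsPrime.isMaximal hPprime hPne
  haveI hint : Algebra.IsIntegral ℤ Zb := inferInstance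
  haveI hQmax : Q.IsMaximal := Ideal.isMaximal_of_isIntegral_of_isMaximal_comap (R := ℤ) Q hPmax
  letI : Field (ℤ ⧸ P) := Ideal.Quotient.field P
  letI : Field (Zb ⧸ Q) := Ideal.Quotient.field Q
  haveI hint' : Algebra.IsIntegral (ℤ ⧸ P) (Zb ⧸ Q) :=
    Ideal.Quotient.algebra_isIntegral_of_liesOver Q P
  haveI halg : Algebra.IsAlgebraic (ℤ ⧸ P) (Zb ⧸ Q) := Algebra.IsIntegral.isAlgebraic
  haveI htf : Module.IsTorsionFree (ℤ ⧸ P) (Zb ⧸ Q) := DivisionSemiring.to_moduleIsTorsionFree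
  have hbij : Function.Bijective Fa := Algebra.IsAlgebraic.algHom_bijective Fa
  let Fe : (Zb ⧸ Q) ≃ₐ[ℤ ⧸ P] (Zb ⧸ Q) := AlgEquiv.ofBijective Fa hbij
  obtain ⟨σ, hσ⟩ := Ideal.Quotient.stabilizerHom_surjective_of_profinite (G := GQ) P Q Fe
  refine ⟨σ.1, σ.2, fun b => ?_⟩
  have h1 := DFunLike.congr_fun hσ (Ideal.Quotient.mk Q b)
  rw [Ideal.Quotient.stabilizerHom_apply] at h1
  have h2 : Fe (Ideal.Quotient.mk Q b) = Ideal.Quotient.mk Q (b ^ ℓ) := by
    show frobenius (Zb ⧸ Q) ℓ (Ideal.Quotient.mk Q b) = _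
    rw [frobenius_def, map_pow]
  rw [h2] at h1
  exact Ideal.Quotient.eq.mp h1

end Fermat.Agent.FrobExists
end MergeWrap_Lib_Frobenius_FrobMod

section MergeWrap_S56_W3_TW_Gen -- from S56/W3/TW/Gen.lean

set_option autoImplicit false

namespace Fermat.Agent.S56.TWGen

open NumberField Fermat.Agent.FrobExists Fermat.Agent.KFin ExtCitation
open scoped Pointwise

attribute [local instance] isAlgebraic_Qb isAlgClosure_Qb isInvariant_Zb

/-- A ring endomorphism of a finite field of characteristic `q` is a power of Frobenius. -/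
theorem ringHom_eq_frob_pow (q : ℕ) [Fact q.Prime] (E : Type) [Field E] [Finite E] [CharP E q]
    (f : E →+* E) : ∃ n : ℕ, ∀ y, f y = y ^ (q ^ n) := by
  classical
  letI : Fintype E := Fintype.ofFinite E
  letI : Algebra (ZMod q) E := ZMod.algebra E q
  have hcomm : ∀ r : ZMod q, f (algebraMap (ZMod q) E r) = algebraMap (ZMod q) E r := by
    intro r
    have : (f : E →+* E).comp (algebraMap (ZMod q) E) = algebraMap (ZMod q) E :=
      Subsingleton.elim _ _
    exact DFunLike.congr_fun this r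
  let fa : E →ₐ[ZMod q] E := { f with commutes' := hcomm }
  have hbij : Function.Bijective fa := by
    have hinj : Function.Injective fa := fa.toRingHom.injective
    exact ⟨hinj, Finite.surjective_of_injective hinj⟩
  let e : E ≃ₐ[ZMod q] E := AlgEquiv.ofBijective fa hbij
  obtain ⟨n, hn⟩ := (FiniteField.bijective_frobeniusAlgEquivOfAlgebraic_pow (ZMod q) E).2 e
  refine ⟨n.1, fun y => ?_⟩
  have h1 : e y = f y := rfl
  rw [← h1, ← hn]
  simp only
  rw [AlgEquiv.coe_pow, FiniteField.coe_frobeniusAlgEquivOfAlgebraic_iterate, ZMod.card]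

section Nonunits

variable (A : ValuationSubring Qb)

theorem nonunits_add {x y : Qb} (hx : x ∈ A.nonunits) (hy : y ∈ A.nonunits) :
    x + y ∈ A.nonunits := by
  rw [ValuationSubring.mem_nonunits_iff] at hx hy ⊢
  exact Valuation.map_add_lt _ hx hy

theorem nonunits_neg {x : Qb} (hx : x ∈ A.nonunits) : -x ∈ A.nonunits := by
  rw [ValuationSubring.mem_nonunits_iff] at hx ⊢
  rwa [Valuation.map_neg]

theorem nonunits_sub {x y : Qb} (hx : x ∈ A.nonunits) (hy : y ∈ A.nonunits) :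
    x - y ∈ A.nonunits := by
  rw [sub_eq_add_neg]
  exact nonunits_add A hx (nonunits_neg A hy)

/-- The decomposition group preserves the maximal ideal. -/
theorem apply_mem_nonunits {d : GQ} (hd : d ∈ A.decompositionSubgroup ℚ) {x : Qb}
    (hx : x ∈ A.nonunits) : d x ∈ A.nonunits := by
  have h1 : d • A = A := MulAction.mem_stabilizer_iff.mp hd
  have h2 := kf_smul_mem_nonunits (K := ℚ) A d hx
  rwa [h1] at h2

/-- The decomposition group preserves the valuation ring. -/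
theorem apply_mem {d : GQ} (hd : d ∈ A.decompositionSubgroup ℚ) {x : Qb}
    (hx : x ∈ A) : d x ∈ A := by
  have h1 : d • A = A := MulAction.mem_stabilizer_iff.mp hd
  have h2 : d • x ∈ d • A := ValuationSubring.smul_mem_pointwise_smul d x _ hx
  rw [h1] at h2
  exact h2

end Nonunits

/-- Every place over `q` has a Frobenius element. -/
theorem exists_isFrobeniusAt (A : ValuationSubring Qb) (q : ℕ) (hq : q.Prime)
    (hA : A.LiesOverPrime q) : ∃ φ : GQ, A.IsFrobeniusAt φ q := by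
  have hqQ : (q : Zb) ∈ centre A := by
    rw [mem_centre_iff]
    have : (((q : ℕ) : Zb) : Qb) = (q : Qb) := by simp
    rw [this]
    exact hA
  obtain ⟨σ, hσQ, hσ⟩ := exists_frob_mod q hq (centre A) hqQ
  exact ⟨σ, isFrobeniusAt_of_centre q A σ hσQ hσ⟩

/-- Powers of a Frobenius element. -/
theorem frob_pow_sub_pow_mem (A : ValuationSubring Qb) (φ : GQ) (q : ℕ)
    (hφ : A.IsFrobeniusAt φ q) (n : ℕ) {a : Qb} (ha : a ∈ A) :
    (φ ^ n) a - a ^ (q ^ n) ∈ A.nonunits := by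
  have hD : φ ∈ A.decompositionSubgroup ℚ := hφ.mem_decompositionSubgroup
  induction n with
  | zero =>
    simp only [pow_zero, pow_one, AlgEquiv.one_apply, sub_self]
    rw [ValuationSubring.mem_nonunits_iff, map_zero]
    exact zero_lt_one
  | succ n ih =>
    have e : (φ ^ (n + 1)) a - a ^ (q ^ (n + 1)) =
        φ ((φ ^ n) a - a ^ (q ^ n)) + (φ (a ^ (q ^ n)) - (a ^ (q ^ n)) ^ q) := by
      rw [pow_succ' φ n, AlgEquiv.mul_apply, map_sub, pow_succ q n, pow_mul]
      ring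
    rw [e]
    refine nonunits_add A (apply_mem_nonunits A hD ih) ?_
    exact Fermat.Agent.TameInertia.frob_sub_pow_mem_nonunits A φ q hφ (A.pow_mem ha _)

/-- An element of the decomposition group acts on the integers of a finite Galois level as a
power of Frobenius, modulo the maximal ideal. -/
theorem exists_pow_frob_level (A : ValuationSubring Qb) (q : ℕ) (hq : q.Prime)
    (hA : A.LiesOverPrime q) (F : IntermediateField ℚ Qb) [FiniteDimensional ℚ F]
    [IsGalois ℚ F] (d : GQ) (hd : d ∈ A.decompositionSubgroup ℚ) :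
    ∃ n : ℕ, ∀ x : F, IsIntegral ℤ x → d (x : Qb) - (x : Qb) ^ (q ^ n) ∈ A.nonunits := by
  haveI : Fact q.Prime := ⟨hq⟩
  haveI hnf : NumberField F :=
    { to_charZero := inferInstance, to_finiteDimensional := inferInstance }
  set P : Ideal (𝓞 F) := primeBelow F A with hPdef
  have hqP : ((q : ℕ) : 𝓞 F) ∈ P := natCast_mem_primeBelow F A q hA
  have hP0 : P ≠ ⊥ := by
    intro h0
    rw [h0, Ideal.mem_bot] at hqP
    exact hq.ne_zero (by exact_mod_cast hqP)
  haveI hPprime : P.IsPrime := primeBelow_isPrime F A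
  haveI hPmax : P.IsMaximal := hPprime.isMaximal hP0
  letI : Field (𝓞 F ⧸ P) := Ideal.Quotient.field P
  haveI : Finite (𝓞 F ⧸ P) := Ideal.finiteQuotientOfFreeOfNeBot P hP0
  haveI : CharP (𝓞 F ⧸ P) q := by
    have h0 : ((q : ℕ) : 𝓞 F ⧸ P) = 0 := by
      have : (Ideal.Quotient.mk P (q : 𝓞 F)) = 0 := Ideal.Quotient.eq_zero_iff_mem.mpr hqP
      simpa using this
    exact (CharP.charP_iff_prime_eq_zero hq).mpr h0
  -- the action of `d` on the integers of `F`
  let s : F ≃ₐ[ℚ] F := AlgEquiv.restrictNormalHom F d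
  have hcoe : ∀ y : 𝓞 F, (((s • y : 𝓞 F) : F) : Qb) = d ((y : F) : Qb) := fun y =>
    AlgEquiv.restrictNormal_commutes d F (y : F)
  let σ : 𝓞 F →+* 𝓞 F := MulSemiringAction.toRingHom (F ≃ₐ[ℚ] F) (𝓞 F) s
  have hσ : ∀ y : 𝓞 F, σ y = s • y := fun _ => rfl
  have hσP : ∀ y ∈ P, σ y ∈ P := by
    intro y hy
    rw [hPdef, mem_primeBelow_iff] at hy ⊢
    rw [hσ, hcoe]
    exact apply_mem_nonunits A hd hy
  let f : (𝓞 F ⧸ P) →+* (𝓞 F ⧸ P) :=
    Ideal.Quotient.lift P ((Ideal.Quotient.mk P).comp σ)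
      (fun y hy => Ideal.Quotient.eq_zero_iff_mem.mpr (hσP y hy))
  obtain ⟨n, hn⟩ := ringHom_eq_frob_pow q (𝓞 F ⧸ P) f
  refine ⟨n, fun x hx => ?_⟩
  let y : 𝓞 F := ⟨x, hx⟩
  have h1 := hn (Ideal.Quotient.mk P y)
  have h2 : f (Ideal.Quotient.mk P y) = Ideal.Quotient.mk P (σ y) := rfl
  rw [h2, ← map_pow, Ideal.Quotient.eq, hPdef, mem_primeBelow_iff] at h1
  have h3 : ((((σ y - y ^ (q ^ n) : 𝓞 F) : 𝓞 F) : F) : Qb) =
      d (x : Qb) - (x : Qb) ^ (q ^ n) := by
    have e1 : (((σ y : 𝓞 F) : F) : Qb) = d (x : Qb) := hcoe y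
    have e2 : (((y ^ (q ^ n) : 𝓞 F) : F) : Qb) = (x : Qb) ^ (q ^ n) := by
      simp [y]
    rw [← e1, ← e2]
    simp
  rw [h3] at h1
  exact h1

/-- **Generation modulo a level** (global form): for `d` in the decomposition group of `A` and a
finite Galois level `F`, some `d⁻¹ φ ^ n σ`, `σ` in the inertia group, fixes `F`. -/
theorem exists_frob_pow_mul_inertia (A : ValuationSubring Qb) (q : ℕ) (hq : q.Prime)
    (hA : A.LiesOverPrime q) (φ : GQ) (hφ : A.IsFrobeniusAt φ q)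
    (F : IntermediateField ℚ Qb) [FiniteDimensional ℚ F] [IsGalois ℚ F]
    (d : GQ) (hd : d ∈ A.decompositionSubgroup ℚ) :
    ∃ (n : ℕ) (σ : GQ), σ ∈ A.inertiaSubgroupIn ℚ ∧ d⁻¹ * (φ ^ n * σ) ∈ F.fixingSubgroup := by
  obtain ⟨n, hn⟩ := exists_pow_frob_level A q hq hA F d hd
  have hdinv : d⁻¹ ∈ A.decompositionSubgroup ℚ := Subgroup.inv_mem _ hd
  set e : GQ := d⁻¹ * φ ^ n with he
  let s : F ≃ₐ[ℚ] F := AlgEquiv.restrictNormalHom F e
  have hs : ∀ x : F, IsIntegral ℤ x →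
      ((s x : F) : AlgebraicClosure ℚ) - (x : AlgebraicClosure ℚ) ∈ A.nonunits := by
    intro x hx
    have hxA : (x : Qb) ∈ A :=
      mem_valuationSubring_of_isIntegral A (hx.map (IsScalarTower.toAlgHom ℤ F Qb))
    have e1 : ((s x : F) : Qb) = e (x : Qb) := AlgEquiv.restrictNormal_commutes e F x
    have e2 : e (x : Qb) - (x : Qb) = d⁻¹ ((φ ^ n) (x : Qb) - d (x : Qb)) := by
      rw [he, AlgEquiv.mul_apply, map_sub]
      congr 1
      show (x : Qb) = d.symm (d (x : Qb))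
      simp
    rw [e1, e2]
    apply apply_mem_nonunits A hdinv
    have e3 : (φ ^ n) (x : Qb) - d (x : Qb) =
        ((φ ^ n) (x : Qb) - (x : Qb) ^ (q ^ n)) - (d (x : Qb) - (x : Qb) ^ (q ^ n)) := by ring
    rw [e3]
    exact nonunits_sub A (frob_pow_sub_pow_mem A φ q hφ n hxA) (hn x hx)
  obtain ⟨σ, hσI, hσs⟩ :=
    Fermat.Agent.Minkowski.exists_mem_inertiaSubgroupIn_restrict A q hq hA F s hs
  refine ⟨n, σ⁻¹, Subgroup.inv_mem _ hσI, ?_⟩
  have hN : Normal ℚ F := IsGalois.to_normal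
  have hker : (AlgEquiv.restrictNormalHom (F := ℚ) (K₁ := Qb) F).ker = F.fixingSubgroup :=
    @IntermediateField.restrictNormalHom_ker ℚ Qb _ _ _ F hN
  rw [← hker, MonoidHom.mem_ker, ← mul_assoc, map_mul, map_inv, hσs]
  exact mul_inv_cancel s

/-- **T3**: the local Galois group is generated by a Frobenius lift and the preimage of
inertia, modulo every level. -/
theorem exists_frob_gen (q : Nat.Primes) :
    ∃ φ : primeLocalGaloisGroup q,
      (primeLocalPlace q).IsFrobeniusAt (primeLocalToGlobal q φ) (q : ℕ) ∧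
      ∀ U ∈ Fermat.Agent.F4.levelsAll.sets, ∀ g : primeLocalGaloisGroup q,
        ∃ (n : ℕ) (τ : primeLocalGaloisGroup q),
          primeLocalToGlobal q τ ∈ (primeLocalPlace q).inertiaSubgroupIn ℚ ∧
          primeLocalToGlobal q (g⁻¹ * (φ ^ n * τ)) ∈ U := by
  have : Fact (q : ℕ).Prime := ⟨q.2⟩
  have hA : (primeLocalPlace q).LiesOverPrime (q : ℕ) := primeLocalPlace_liesOverPrime q
  have hrange : (primeLocalToGlobal q).range =
      (primeLocalPlace q).decompositionSubgroup ℚ :=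
    Fermat.Agent.LocalGalois.range_localGaloisToGlobal (q : ℕ)
  obtain ⟨φ₀, hφ₀⟩ := exists_isFrobeniusAt (primeLocalPlace q) (q : ℕ) q.2 hA
  have hφ₀D : φ₀ ∈ (primeLocalToGlobal q).range := by
    rw [hrange]
    exact hφ₀.mem_decompositionSubgroup
  obtain ⟨φ, hφ⟩ := hφ₀D
  refine ⟨φ, by rw [hφ]; exact hφ₀, ?_⟩
  rintro U ⟨F, hFfin, hFst, rfl⟩ g
  have := hFfin
  have : IsGalois ℚ F :=
    (InfiniteGalois.normal_iff_isGalois F).mp hFst.normal_fixingSubgroup
  have hd : primeLocalToGlobal q g ∈ (primeLocalPlace q).decompositionSubgroup ℚ := by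
    rw [← hrange]
    exact ⟨g, rfl⟩
  obtain ⟨n, σ, hσI, hσ⟩ := exists_frob_pow_mul_inertia (primeLocalPlace q) (q : ℕ) q.2 hA
    φ₀ hφ₀ F (primeLocalToGlobal q g) hd
  have hσD : σ ∈ (primeLocalToGlobal q).range := by
    rw [hrange]
    obtain ⟨h1, -⟩ := (kf_mem_inertiaSubgroupIn_iff (K := ℚ) (primeLocalPlace q) σ).mp hσI
    exact h1
  obtain ⟨τ, hτ⟩ := hσD
  refine ⟨n, τ, by rw [hτ]; exact hσI, ?_⟩
  rw [map_mul, map_inv, map_mul, map_pow, hφ, hτ]
  exact hσ

end Fermat.Agent.S56.TWGen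
end MergeWrap_S56_W3_TW_Gen
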